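/-
S41 / CSP-F3 (helper16): matrix toolkit for Step A (centrality) of helper11's proof of the
congruence subgroup property for abelian `p`-quotients of `SL₂(ℤ[1/q])`.

Vocabulary: landed `Amalgam95` (`SLQ`, `mkQ`, `uQ`, `IsAway`) and `Ihara95.Core`
(`IsCongZero`, `IsPrincipal`).
-/
import Fermat.Agent.S41.Ihara95.Core

set_option autoImplicit false

namespace Fermat.Agent.S41.CSP16

open Matrix Fermat.Agent.S41.Amalgam95 Fermat.Agent.S41.Ihara95

/-! ### `IsCongZero` is an ideal of `ℤ[1/q]` -/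

lemma czZero (q M : ℕ) : IsCongZero q M 0 := ⟨0, IsAway.zero, by ring⟩

lemma czIsAway {q M : ℕ} {x : ℚ} (h : IsCongZero q M x) : IsAway q x := by
  obtain ⟨r, hr, rfl⟩ := h
  have := (IsAway.of_int (q := q) (M : ℤ)).mul hr
  simpa using this

lemma czAdd {q M : ℕ} {x y : ℚ} (hx : IsCongZero q M x) (hy : IsCongZero q M y) :
    IsCongZero q M (x + y) := by
  obtain ⟨r, hr, rfl⟩ := hx
  obtain ⟨s, hs, rfl⟩ := hy
  exact ⟨r + s, hr.add hs, by ring⟩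

lemma czNeg {q M : ℕ} {x : ℚ} (hx : IsCongZero q M x) : IsCongZero q M (-x) := by
  obtain ⟨r, hr, rfl⟩ := hx
  exact ⟨-r, hr.neg, by ring⟩

lemma czSub {q M : ℕ} {x y : ℚ} (hx : IsCongZero q M x) (hy : IsCongZero q M y) :
    IsCongZero q M (x - y) := by
  rw [sub_eq_add_neg]; exact czAdd hx (czNeg hy)

lemma czMulAway {q M : ℕ} {x y : ℚ} (hx : IsCongZero q M x) (hy : IsAway q y) :
    IsCongZero q M (x * y) := by
  obtain ⟨r, hr, rfl⟩ := hx
  exact ⟨r * y, hr.mul hy, by ring⟩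

lemma czAwayMul {q M : ℕ} {x y : ℚ} (hy : IsAway q y) (hx : IsCongZero q M x) :
    IsCongZero q M (y * x) := by
  rw [mul_comm]; exact czMulAway hx hy

lemma czOfAway {q M : ℕ} {r : ℚ} (hr : IsAway q r) : IsCongZero q M ((M : ℚ) * r) :=
  ⟨r, hr, rfl⟩

lemma czCongr {q M : ℕ} {x y : ℚ} (hx : IsCongZero q M x) (h : y = x) :
    IsCongZero q M y := h ▸ hx

/-! ### elementary matrices -/

/-- lower unipotent `[[1,0],[y,1]]` -/
def lQ (y : ℚ) : SLQ := mkQ 1 0 y 1 (by ring)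

/-- the Weyl element `[[0,1],[-1,0]]` -/
def wQ : SLQ := mkQ 0 1 (-1) 0 (by ring)

/-- the torus element `diag(e, e⁻¹)` -/
def hQ (e : ℚ) (he : e ≠ 0) : SLQ := mkQ e 0 0 e⁻¹ (by rw [mul_inv_cancel₀ he]; ring)

@[simp] lemma uQ_00 (x : ℚ) : (uQ x) 0 0 = 1 := rfl
@[simp] lemma uQ_01 (x : ℚ) : (uQ x) 0 1 = x := rfl
@[simp] lemma uQ_10 (x : ℚ) : (uQ x) 1 0 = 0 := rfl
@[simp] lemma uQ_11 (x : ℚ) : (uQ x) 1 1 = 1 := rfl
@[simp] lemma lQ_00 (x : ℚ) : (lQ x) 0 0 = 1 := rfl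
@[simp] lemma lQ_01 (x : ℚ) : (lQ x) 0 1 = 0 := rfl
@[simp] lemma lQ_10 (x : ℚ) : (lQ x) 1 0 = x := rfl
@[simp] lemma lQ_11 (x : ℚ) : (lQ x) 1 1 = 1 := rfl
@[simp] lemma wQ_00 : wQ 0 0 = 0 := rfl
@[simp] lemma wQ_01 : wQ 0 1 = 1 := rfl
@[simp] lemma wQ_10 : wQ 1 0 = -1 := rfl
@[simp] lemma wQ_11 : wQ 1 1 = 0 := rfl
@[simp] lemma hQ_00 (e : ℚ) (he : e ≠ 0) : (hQ e he) 0 0 = e := rfl
@[simp] lemma hQ_01 (e : ℚ) (he : e ≠ 0) : (hQ e he) 0 1 = 0 := rfl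
@[simp] lemma hQ_10 (e : ℚ) (he : e ≠ 0) : (hQ e he) 1 0 = 0 := rfl
@[simp] lemma hQ_11 (e : ℚ) (he : e ≠ 0) : (hQ e he) 1 1 = e⁻¹ := rfl

lemma uQ_inv (x : ℚ) : (uQ x)⁻¹ = uQ (-x) := by
  apply ext_entries <;> simp [inv_00, inv_01, inv_10, inv_11]

lemma lQ_inv (x : ℚ) : (lQ x)⁻¹ = lQ (-x) := by
  apply ext_entries <;> simp [inv_00, inv_01, inv_10, inv_11]

lemma uQ_mul (x y : ℚ) : uQ x * uQ y = uQ (x + y) := by
  apply ext_entries <;> simp [mul_00, mul_01, mul_10, mul_11, add_comm]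

lemma lQ_mul (x y : ℚ) : lQ x * lQ y = lQ (x + y) := by
  apply ext_entries <;> simp [mul_00, mul_01, mul_10, mul_11, add_comm]

/-- `w u(t) w⁻¹ = l(-t)` -/
lemma wQ_uQ_wQ_inv (t : ℚ) : wQ * uQ t * wQ⁻¹ = lQ (-t) := by
  apply ext_entries <;> simp [mul_00, mul_01, mul_10, mul_11, inv_00, inv_01, inv_10, inv_11]

/-! ### matrices with entries in `ℤ[1/q]` -/

/-- all four entries in `ℤ[1/q]` -/
def IsAwayMat (q : ℕ) (g : SLQ) : Prop :=
  IsAway q (g 0 0) ∧ IsAway q (g 0 1) ∧ IsAway q (g 1 0) ∧ IsAway q (g 1 1)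

lemma IsAwayMat.one (q : ℕ) : IsAwayMat q 1 := by
  refine ⟨?_, ?_, ?_, ?_⟩
  · rw [one_00]; exact IsAway.one
  · rw [one_01]; exact IsAway.zero
  · rw [one_10]; exact IsAway.zero
  · rw [one_11]; exact IsAway.one

lemma IsAwayMat.mul {q : ℕ} {g h : SLQ} (hg : IsAwayMat q g) (hh : IsAwayMat q h) :
    IsAwayMat q (g * h) := by
  obtain ⟨g00, g01, g10, g11⟩ := hg
  obtain ⟨h00, h01, h10, h11⟩ := hh
  refine ⟨?_, ?_, ?_, ?_⟩
  · rw [mul_00]; exact (g00.mul h00).add (g01.mul h10)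
  · rw [mul_01]; exact (g00.mul h01).add (g01.mul h11)
  · rw [mul_10]; exact (g10.mul h00).add (g11.mul h10)
  · rw [mul_11]; exact (g10.mul h01).add (g11.mul h11)

lemma IsAwayMat.inv {q : ℕ} {g : SLQ} (hg : IsAwayMat q g) : IsAwayMat q g⁻¹ := by
  obtain ⟨g00, g01, g10, g11⟩ := hg
  refine ⟨?_, ?_, ?_, ?_⟩
  · rw [inv_00]; exact g11
  · rw [inv_01]; exact g01.neg
  · rw [inv_10]; exact g10.neg
  · rw [inv_11]; exact g00

lemma isAwayMat_uQ {q : ℕ} {t : ℚ} (ht : IsAway q t) : IsAwayMat q (uQ t) :=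
  ⟨IsAway.one, ht, IsAway.zero, IsAway.one⟩

lemma isAwayMat_lQ {q : ℕ} {t : ℚ} (ht : IsAway q t) : IsAwayMat q (lQ t) :=
  ⟨IsAway.one, IsAway.zero, ht, IsAway.one⟩

lemma isAwayMat_wQ (q : ℕ) : IsAwayMat q wQ :=
  ⟨IsAway.zero, IsAway.one, IsAway.one.neg, IsAway.zero⟩

/-! ### the principal congruence subgroup `Γ(M)[1/q]` -/

lemma prIsAwayMat {q M : ℕ} {g : SLQ} (hg : IsPrincipal q M g) : IsAwayMat q g := by
  obtain ⟨h00, h01, h10, h11⟩ := hg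
  refine ⟨?_, czIsAway h01, czIsAway h10, ?_⟩
  · have := (czIsAway h00).add IsAway.one
    simpa using this
  · have := (czIsAway h11).add IsAway.one
    simpa using this

lemma prOne (q M : ℕ) : IsPrincipal q M 1 := by
  refine ⟨?_, ?_, ?_, ?_⟩
  · rw [one_00]; exact czCongr (czZero q M) (by ring)
  · rw [one_01]; exact czZero q M
  · rw [one_10]; exact czZero q M
  · rw [one_11]; exact czCongr (czZero q M) (by ring)

lemma prMul {q M : ℕ} {g h : SLQ} (hg : IsPrincipal q M g) (hh : IsPrincipal q M h) :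
    IsPrincipal q M (g * h) := by
  obtain ⟨a00, a01, a10, a11⟩ := prIsAwayMat hg
  obtain ⟨b00, b01, b10, b11⟩ := prIsAwayMat hh
  obtain ⟨g00, g01, g10, g11⟩ := hg
  obtain ⟨h00, h01, h10, h11⟩ := hh
  refine ⟨?_, ?_, ?_, ?_⟩
  · rw [mul_00]
    exact czCongr (czAdd (czAdd (czMulAway g00 b00) h00) (czMulAway g01 b10)) (by ring)
  · rw [mul_01]
    exact czCongr (czAdd (czAwayMul a00 h01) (czMulAway g01 b11)) (by ring)
  · rw [mul_10]
    exact czCongr (czAdd (czMulAway g10 b00) (czAwayMul a11 h10)) (by ring)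
  · rw [mul_11]
    exact czCongr (czAdd (czAdd (czMulAway g10 b01) (czMulAway g11 b11)) h11) (by ring)

lemma prInv {q M : ℕ} {g : SLQ} (hg : IsPrincipal q M g) : IsPrincipal q M g⁻¹ := by
  obtain ⟨g00, g01, g10, g11⟩ := hg
  refine ⟨?_, ?_, ?_, ?_⟩
  · rw [inv_00]; exact g11
  · rw [inv_01]; exact czNeg g01
  · rw [inv_10]; exact czNeg g10
  · rw [inv_11]; exact g00

/-- `Γ(M)[1/q]` is normalised by `SL₂(ℤ[1/q])`. -/
lemma prConj {q M : ℕ} {g x : SLQ} (hg : IsPrincipal q M g) (hx : IsAwayMat q x) :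
    IsPrincipal q M (x * g * x⁻¹) := by
  obtain ⟨x00, x01, x10, x11⟩ := hx
  obtain ⟨g00, g01, g10, g11⟩ := hg
  have hdet := det_eq x
  refine ⟨?_, ?_, ?_, ?_⟩
  · rw [mul_00, mul_00, mul_01, inv_00, inv_10]
    refine czCongr (czSub (czSub (czAdd (czMulAway g00 (x00.mul x11))
      (czMulAway g10 (x01.mul x11))) (czMulAway g01 (x00.mul x10)))
      (czMulAway g11 (x01.mul x10))) ?_
    linear_combination hdet
  · rw [mul_01, mul_00, mul_01, inv_01, inv_11]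
    refine czCongr (czAdd (czAdd (czSub (czNeg (czMulAway g00 (x00.mul x01)))
      (czMulAway g10 (x01.mul x01))) (czMulAway g01 (x00.mul x00)))
      (czMulAway g11 (x01.mul x00))) ?_
    ring
  · rw [mul_10, mul_10, mul_11, inv_00, inv_10]
    refine czCongr (czSub (czSub (czAdd (czMulAway g00 (x10.mul x11))
      (czMulAway g10 (x11.mul x11))) (czMulAway g01 (x10.mul x10)))
      (czMulAway g11 (x11.mul x10))) ?_
    ring
  · rw [mul_11, mul_10, mul_11, inv_01, inv_11]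
    refine czCongr (czAdd (czAdd (czSub (czNeg (czMulAway g00 (x10.mul x01)))
      (czMulAway g10 (x11.mul x01))) (czMulAway g01 (x10.mul x00)))
      (czMulAway g11 (x11.mul x00))) ?_
    linear_combination hdet

lemma isPrincipal_uQ {q M : ℕ} {t : ℚ} (ht : IsCongZero q M t) : IsPrincipal q M (uQ t) :=
  ⟨czCongr (czZero q M) (by simp), ht, czZero q M, czCongr (czZero q M) (by simp)⟩

lemma isPrincipal_lQ {q M : ℕ} {t : ℚ} (ht : IsCongZero q M t) : IsPrincipal q M (lQ t) :=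
  ⟨czCongr (czZero q M) (by simp), czZero q M, ht, czCongr (czZero q M) (by simp)⟩

/-- trace of a conjugate -/
lemma trace_conj (x g : SLQ) :
    (x * g * x⁻¹) 0 0 + (x * g * x⁻¹) 1 1 = g 0 0 + g 1 1 := by
  have hdet := det_eq x
  rw [mul_00, mul_00, mul_01, inv_00, inv_10, mul_11, mul_10, mul_11, inv_01, inv_11]
  linear_combination (g 0 0 + g 1 1) * hdet

end Fermat.Agent.S41.CSP16
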