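/-
S41 / CSP-F3 (helper16): the column symbol of a par-hom `Ψ` of level `M` on `Γ(M)[1/q]`:
"same first column ⇒ same value", (A0), (A1) `Ψ(h(e)) = 0` for `e = qⁿ ≡ 1 mod M`, and
`T(e² a, c) = T(a, c)`.

A *par-hom of level `M`* is given by the two explicit hypotheses
`hmul : ∀ g h, IsPrincipal q M g → IsPrincipal q M h → Ψ (g * h) = Ψ g + Ψ h` and
`hunip : ∀ g, IsPrincipal q M g → g 0 0 + g 1 1 = 2 → Ψ g = 0`.
-/
import Fermat.Agent.S41.CSP16.Mat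

set_option autoImplicit false
set_option linter.unusedSimpArgs false

namespace Fermat.Agent.S41.CSP16

open Matrix Fermat.Agent.S41.Amalgam95 Fermat.Agent.S41.Ihara95

section

variable {V : Type*} [AddCommGroup V] {q M : ℕ} {Ψ : SLQ → V}

/-- `Ψ(u(s)) = 0` for `s ∈ M ℤ[1/q]`. -/
lemma psi_uQ (hunip : ∀ g, IsPrincipal q M g → g 0 0 + g 1 1 = 2 → Ψ g = 0)
    {s : ℚ} (hs : IsCongZero q M s) : Ψ (uQ s) = 0 :=
  hunip _ (isPrincipal_uQ hs) (by simp; norm_num)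

/-- `Ψ(l(s)) = 0` for `s ∈ M ℤ[1/q]`. -/
lemma psi_lQ (hunip : ∀ g, IsPrincipal q M g → g 0 0 + g 1 1 = 2 → Ψ g = 0)
    {s : ℚ} (hs : IsCongZero q M s) : Ψ (lQ s) = 0 :=
  hunip _ (isPrincipal_lQ hs) (by simp; norm_num)

/-- `Ψ` kills conjugates of unipotents of `Γ(M)` by `SL₂(ℤ[1/q])`. -/
lemma psi_conj_unip (hunip : ∀ g, IsPrincipal q M g → g 0 0 + g 1 1 = 2 → Ψ g = 0)
    {g x : SLQ} (hg : IsPrincipal q M g) (htr : g 0 0 + g 1 1 = 2) (hx : IsAwayMat q x) :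
    Ψ (x * g * x⁻¹) = 0 :=
  hunip _ (prConj hg hx) (by rw [trace_conj]; exact htr)

/-- **well-definedness of the column symbol**: two elements of `Γ(M)` with the same first column
have the same `Ψ`-value. -/
lemma same_col (hmul : ∀ g h, IsPrincipal q M g → IsPrincipal q M h → Ψ (g * h) = Ψ g + Ψ h)
    (hunip : ∀ g, IsPrincipal q M g → g 0 0 + g 1 1 = 2 → Ψ g = 0)
    {g g' : SLQ} (hg : IsPrincipal q M g) (hg' : IsPrincipal q M g')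
    (h0 : g' 0 0 = g 0 0) (h1 : g' 1 0 = g 1 0) : Ψ g' = Ψ g := by
  have hdg := det_eq g
  have hdg' := det_eq g'
  rw [h0, h1] at hdg'
  obtain ⟨-, a01, -, a11⟩ := prIsAwayMat hg
  obtain ⟨-, -, -, b11⟩ := prIsAwayMat hg'
  have hs : IsCongZero q M (g 1 1 * g' 0 1 - g 0 1 * g' 1 1) :=
    czSub (czAwayMul a11 hg'.2.1) (czMulAway hg.2.1 b11)
  have hgg' : g' = g * uQ (g 1 1 * g' 0 1 - g 0 1 * g' 1 1) := by
    apply ext_entries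
    · rw [mul_00, uQ_00, uQ_10, h0]; ring
    · rw [mul_01, uQ_01, uQ_11]
      linear_combination (-(g' 0 1)) * hdg + (g 0 1) * hdg'
    · rw [mul_10, uQ_00, uQ_10, h1]; ring
    · rw [mul_11, uQ_01, uQ_11]
      linear_combination (-(g' 1 1)) * hdg + (g 1 1) * hdg'
  rw [hgg', hmul _ _ hg (isPrincipal_uQ hs), psi_uQ hunip hs, add_zero]

/-- (A0), upper: left multiplication by `u(t)`, `t ∈ M ℤ[1/q]`. -/
lemma psi_uQ_mul (hmul : ∀ g h, IsPrincipal q M g → IsPrincipal q M h → Ψ (g * h) = Ψ g + Ψ h)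
    (hunip : ∀ g, IsPrincipal q M g → g 0 0 + g 1 1 = 2 → Ψ g = 0)
    {g : SLQ} (hg : IsPrincipal q M g) {t : ℚ} (ht : IsCongZero q M t) :
    Ψ (uQ t * g) = Ψ g := by
  rw [hmul _ _ (isPrincipal_uQ ht) hg, psi_uQ hunip ht, zero_add]

/-- (A0), lower: left multiplication by `l(t)`, `t ∈ M ℤ[1/q]`. -/
lemma psi_lQ_mul (hmul : ∀ g h, IsPrincipal q M g → IsPrincipal q M h → Ψ (g * h) = Ψ g + Ψ h)
    (hunip : ∀ g, IsPrincipal q M g → g 0 0 + g 1 1 = 2 → Ψ g = 0)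
    {g : SLQ} (hg : IsPrincipal q M g) {t : ℚ} (ht : IsCongZero q M t) :
    Ψ (lQ t * g) = Ψ g := by
  rw [hmul _ _ (isPrincipal_lQ ht) hg, psi_lQ hunip ht, zero_add]

/-- the torus factorisation `h(e) = [u(x) l(M) u(-x)] · u(M x²/e) · l(-M e)`, `e = 1 + M x`. -/
lemma hQ_factor (e x m : ℚ) (he : e ≠ 0) (hex : e = 1 + m * x) :
    hQ e he = uQ x * lQ m * (uQ x)⁻¹ * uQ (m * x ^ 2 * e⁻¹) * lQ (-(m * e)) := by
  rw [uQ_inv]
  apply ext_entries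
  · simp only [mul_00, mul_01, mul_10, mul_11, uQ_00, uQ_01, uQ_10, uQ_11, lQ_00, lQ_01, lQ_10,
      lQ_11, hQ_00]
    field_simp
    rw [hex]; ring
  · simp only [mul_00, mul_01, mul_10, mul_11, uQ_00, uQ_01, uQ_10, uQ_11, lQ_00, lQ_01, lQ_10,
      lQ_11, hQ_01]
    field_simp
    rw [hex]; ring
  · simp only [mul_00, mul_01, mul_10, mul_11, uQ_00, uQ_01, uQ_10, uQ_11, lQ_00, lQ_01, lQ_10,
      lQ_11, hQ_10]
    field_simp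
    rw [hex]; ring
  · simp only [mul_00, mul_01, mul_10, mul_11, uQ_00, uQ_01, uQ_10, uQ_11, lQ_00, lQ_01, lQ_10,
      lQ_11, hQ_11]
    field_simp
    rw [hex]; ring

end

/-! ### the units `qⁿ` -/

lemma qpow_ne_zero {q : ℕ} (hq : q ≠ 0) (n : ℕ) : ((q : ℚ) ^ n) ≠ 0 :=
  pow_ne_zero _ (by exact_mod_cast hq)

lemma isAway_qpow (q n : ℕ) : IsAway q ((q : ℚ) ^ n) := by
  have := IsAway.of_int (q := q) ((q : ℤ) ^ n)
  simpa using this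

lemma isAway_qpow_inv {q : ℕ} (hq : q ≠ 0) (n : ℕ) : IsAway q (((q : ℚ) ^ n)⁻¹) := by
  have h := qpow_ne_zero hq n
  exact ⟨n, 1, by rw [inv_mul_cancel₀ h]; simp⟩

/-- `h(qⁿ) ∈ Γ(M)` when `qⁿ ≡ 1 mod M`. -/
lemma isPrincipal_hQ {q M : ℕ} (hq : q ≠ 0) (n : ℕ) (hn : (M : ℤ) ∣ (q : ℤ) ^ n - 1) :
    IsPrincipal q M (hQ ((q : ℚ) ^ n) (qpow_ne_zero hq n)) := by
  obtain ⟨k, hk⟩ := hn
  have hex : (q : ℚ) ^ n = 1 + (M : ℚ) * k := by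
    have : ((q : ℤ) ^ n : ℚ) - 1 = (M : ℚ) * k := by exact_mod_cast congrArg (Int.cast (R := ℚ)) hk
    push_cast at this
    linarith
  have h := qpow_ne_zero hq n
  refine ⟨?_, czZero q M, czZero q M, ?_⟩
  · rw [hQ_00]
    exact ⟨(k : ℚ), IsAway.of_int k, by rw [hex]; ring⟩
  · rw [hQ_11]
    refine ⟨-((k : ℚ) * ((q : ℚ) ^ n)⁻¹), ((IsAway.of_int k).mul (isAway_qpow_inv hq n)).neg, ?_⟩
    field_simp
    rw [hex]; ring

section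

variable {V : Type*} [AddCommGroup V] {q M : ℕ} {Ψ : SLQ → V}

/-- **(A1)** `Ψ(h(qⁿ)) = 0` when `qⁿ ≡ 1 mod M`. -/
lemma psi_hQ (hmul : ∀ g h, IsPrincipal q M g → IsPrincipal q M h → Ψ (g * h) = Ψ g + Ψ h)
    (hunip : ∀ g, IsPrincipal q M g → g 0 0 + g 1 1 = 2 → Ψ g = 0)
    (hq : q ≠ 0) (n : ℕ) (hn : (M : ℤ) ∣ (q : ℤ) ^ n - 1) :
    Ψ (hQ ((q : ℚ) ^ n) (qpow_ne_zero hq n)) = 0 := by
  obtain ⟨k, hk⟩ := hn
  have hex : (q : ℚ) ^ n = 1 + (M : ℚ) * k := by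
    have : ((q : ℤ) ^ n : ℚ) - 1 = (M : ℚ) * k := by exact_mod_cast congrArg (Int.cast (R := ℚ)) hk
    push_cast at this
    linarith
  rw [hQ_factor _ (k : ℚ) (M : ℚ) _ hex]
  have hk' : IsAway q (k : ℚ) := IsAway.of_int k
  have hP : IsPrincipal q M (uQ (k : ℚ) * lQ (M : ℚ) * (uQ (k : ℚ))⁻¹) :=
    prConj (isPrincipal_lQ ⟨1, IsAway.one, by ring⟩) (isAwayMat_uQ hk')
  have hU : IsCongZero q M ((M : ℚ) * (k : ℚ) ^ 2 * ((q : ℚ) ^ n)⁻¹) :=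
    ⟨(k : ℚ) * (k : ℚ) * ((q : ℚ) ^ n)⁻¹, (hk'.mul hk').mul (isAway_qpow_inv hq n),
      by ring⟩
  have hL : IsCongZero q M (-((M : ℚ) * (q : ℚ) ^ n)) :=
    ⟨-((q : ℚ) ^ n), (isAway_qpow q n).neg, by ring⟩
  rw [hmul _ _ (prMul hP (isPrincipal_uQ hU)) (isPrincipal_lQ hL),
    hmul _ _ hP (isPrincipal_uQ hU), psi_uQ hunip hU, psi_lQ hunip hL,
    psi_conj_unip hunip (isPrincipal_lQ ⟨1, IsAway.one, by ring⟩) (by simp; norm_num)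
      (isAwayMat_uQ hk')]
  simp

/-- **`T(e² a, c) = T(a, c)`**, `e = qⁿ ≡ 1 mod M`: the element `h(e) g h(e)` of `Γ(M)` has first
column `(e² a, c)` and the same `Ψ`-value as `g`. -/
lemma psi_hQ_mul_mul (hmul : ∀ g h, IsPrincipal q M g → IsPrincipal q M h → Ψ (g * h) = Ψ g + Ψ h)
    (hunip : ∀ g, IsPrincipal q M g → g 0 0 + g 1 1 = 2 → Ψ g = 0)
    (hq : q ≠ 0) (n : ℕ) (hn : (M : ℤ) ∣ (q : ℤ) ^ n - 1) {g : SLQ} (hg : IsPrincipal q M g) :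
    IsPrincipal q M (hQ ((q : ℚ) ^ n) (qpow_ne_zero hq n) * g * hQ ((q : ℚ) ^ n) (qpow_ne_zero hq n))
      ∧ Ψ (hQ ((q : ℚ) ^ n) (qpow_ne_zero hq n) * g * hQ ((q : ℚ) ^ n) (qpow_ne_zero hq n)) = Ψ g
      ∧ (hQ ((q : ℚ) ^ n) (qpow_ne_zero hq n) * g * hQ ((q : ℚ) ^ n) (qpow_ne_zero hq n)) 0 0
          = ((q : ℚ) ^ n) ^ 2 * g 0 0
      ∧ (hQ ((q : ℚ) ^ n) (qpow_ne_zero hq n) * g * hQ ((q : ℚ) ^ n) (qpow_ne_zero hq n)) 1 0
          = g 1 0 := by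
  have hh := isPrincipal_hQ hq n hn
  have h0 := psi_hQ hmul hunip hq n hn
  have h := qpow_ne_zero hq n
  refine ⟨prMul (prMul hh hg) hh, ?_, ?_, ?_⟩
  · rw [hmul _ _ (prMul hh hg) hh, hmul _ _ hh hg, h0]; simp
  · rw [mul_00, mul_00, mul_01, hQ_00, hQ_01, hQ_10]; ring
  · rw [mul_10, mul_10, mul_11, hQ_00, hQ_10, hQ_11]
    field_simp
    ring

end

end Fermat.Agent.S41.CSP16
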