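/-
S41 / CSP-F3 (helper16): **Step A (centrality)** of helper11's proof (#3042).

A par-hom `Ψ` of level `M` on `Γ(M)[1/q]` (any abelian target) is invariant under conjugation by
every matrix of `SL₂(ℤ[1/q])`.  The number theory of (A3) enters through the single hypothesis
`GoodShift q M` (file F2 / `exists_good_shift`).
-/
import Mathlib.LinearAlgebra.Matrix.FixedDetMatrices
import Fermat.Agent.S41.CSP16.Symbol

set_option autoImplicit false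
set_option linter.unusedSimpArgs false
set_option linter.unusedSectionVars false

namespace Fermat.Agent.S41.CSP16

open Matrix Fermat.Agent.S41.Amalgam95 Fermat.Agent.S41.Ihara95

/-- **The number-theoretic input of (A3)** (to be supplied by F2): every unimodular column
`(a, c)` with `a ≡ 1`, `c ≡ 0 mod M` can be moved by `c ↦ c + M s a` to a column for which
`η² = 1 + c' s₂` with `η = qⁿ ≡ 1 mod M` and `s₂ a` additively generating `ℤ[1/q]/M`. -/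
def GoodShift (q M : ℕ) : Prop :=
  ∀ a c : ℚ, IsCongZero q M (a - 1) → IsCongZero q M c →
    (∃ x y : ℚ, IsAway q x ∧ IsAway q y ∧ a * x + c * y = 1) →
    ∃ (s : ℚ) (n : ℕ) (s2 : ℚ), IsAway q s ∧ IsAway q s2 ∧ ((M : ℤ) ∣ (q : ℤ) ^ n - 1) ∧
      ((q : ℚ) ^ n) ^ 2 = 1 + (c + (M : ℚ) * s * a) * s2 ∧
      ∀ t : ℚ, IsAway q t → ∃ i : ℕ, IsCongZero q M (t - (i : ℚ) * s2 * a)

/-- binomial expansion to second order inside `ℤ[1/q]` -/
lemma exists_binom_rem {q : ℕ} {X : ℚ} (hX : IsAway q X) (i : ℕ) :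
    ∃ r : ℚ, IsAway q r ∧ (1 + X) ^ i = 1 + (i : ℚ) * X + X ^ 2 * r := by
  induction i with
  | zero => exact ⟨0, IsAway.zero, by simp⟩
  | succ i ih =>
    obtain ⟨r, hr, h⟩ := ih
    have hiA : IsAway q (i : ℚ) := by
      have := IsAway.of_int (q := q) (i : ℤ)
      simpa using this
    refine ⟨(i : ℚ) + r + X * r, (hiA.add hr).add (hX.mul hr), ?_⟩
    rw [pow_succ, h]
    push_cast
    ring

section

variable {V : Type*} [AddCommGroup V] {q M : ℕ} {Ψ : SLQ → V}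

/-- **(A3), core**: if the first column `(a, c)` of `g ∈ Γ(M)` satisfies `η² = 1 + c s₂`
(`η = qⁿ ≡ 1 mod M`) and `s₂ a` generates `ℤ[1/q]/M` additively, then `Ψ(u(t) g u(t)⁻¹) = Ψ(g)`
for every `t ∈ ℤ[1/q]`. -/
lemma psi_conj_uQ_of_good
    (hmul : ∀ g h, IsPrincipal q M g → IsPrincipal q M h → Ψ (g * h) = Ψ g + Ψ h)
    (hunip : ∀ g, IsPrincipal q M g → g 0 0 + g 1 1 = 2 → Ψ g = 0)
    (hq : q ≠ 0) {g : SLQ} (hg : IsPrincipal q M g)
    (n : ℕ) (hn : (M : ℤ) ∣ (q : ℤ) ^ n - 1) (s2 : ℚ) (hs2 : IsAway q s2)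
    (heta : ((q : ℚ) ^ n) ^ 2 = 1 + g 1 0 * s2)
    (hgen : ∀ t : ℚ, IsAway q t → ∃ i : ℕ, IsCongZero q M (t - (i : ℚ) * s2 * g 0 0))
    {t : ℚ} (ht : IsAway q t) : Ψ (uQ t * g * (uQ t)⁻¹) = Ψ g := by
  obtain ⟨i, hi⟩ := hgen t ht
  obtain ⟨a00, a01, a10, a11⟩ := prIsAwayMat hg
  -- the unit `e = q^(n i)`
  have hni : (M : ℤ) ∣ (q : ℤ) ^ (n * i) - 1 := by
    have h1 : (q : ℤ) ^ n - 1 ∣ ((q : ℤ) ^ n) ^ i - 1 ^ i := sub_dvd_pow_sub_pow _ _ _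
    rw [one_pow, ← pow_mul] at h1
    exact hn.trans h1
  obtain ⟨h1p, h1v, h100, h110⟩ := psi_hQ_mul_mul hmul hunip hq (n * i) hni hg
  set g₁ := hQ ((q : ℚ) ^ (n * i)) (qpow_ne_zero hq (n * i)) * g *
    hQ ((q : ℚ) ^ (n * i)) (qpow_ne_zero hq (n * i)) with hg₁
  -- binomial expansion of `e² = (1 + c s₂)^i`
  obtain ⟨r, hr, hbin⟩ := exists_binom_rem (a10.mul hs2) i
  have he2 : ((q : ℚ) ^ (n * i)) ^ 2 = 1 + (i : ℚ) * (g 1 0 * s2) + (g 1 0 * s2) ^ 2 * r := by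
    rw [← hbin, ← heta, ← pow_mul, ← pow_mul, ← pow_mul]
    ring_nf
  -- the correction `τ ∈ M ℤ[1/q]`
  have hτ : IsCongZero q M ((t - (i : ℚ) * s2 * g 0 0) - g 1 0 * (s2 * s2 * r * g 0 0)) :=
    czSub hi (czMulAway hg.2.2.1 (((hs2.mul hs2).mul hr).mul a00))
  set τ := (t - (i : ℚ) * s2 * g 0 0) - g 1 0 * (s2 * s2 * r * g 0 0) with hτdef
  have h2p : IsPrincipal q M (uQ τ * g₁) := prMul (isPrincipal_uQ hτ) h1p
  have h2v : Ψ (uQ τ * g₁) = Ψ g := by rw [psi_uQ_mul hmul hunip h1p hτ, h1v]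
  have h3p : IsPrincipal q M (uQ t * g * (uQ t)⁻¹) := prConj hg (isAwayMat_uQ ht)
  rw [← h2v]
  apply same_col hmul hunip h2p h3p
  · have hL : (uQ t * g * (uQ t)⁻¹) 0 0 = g 0 0 + t * g 1 0 := by
      simp only [mul_00, mul_01, mul_10, mul_11, inv_00, inv_01, inv_10, inv_11, uQ_00, uQ_01,
        uQ_10, uQ_11]
      ring
    have hR : (uQ τ * g₁) 0 0 = g₁ 0 0 + τ * g₁ 1 0 := by
      simp only [mul_00, uQ_00, uQ_01]
      ring
    rw [hL, hR, h100, h110, he2, hτdef]; ring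
  · have hL : (uQ t * g * (uQ t)⁻¹) 1 0 = g 1 0 := by
      simp only [mul_00, mul_01, mul_10, mul_11, inv_00, inv_01, inv_10, inv_11, uQ_00, uQ_01,
        uQ_10, uQ_11]
      ring
    have hR : (uQ τ * g₁) 1 0 = g₁ 1 0 := by
      simp only [mul_10, uQ_10, uQ_11]
      ring
    rw [hL, hR, h110]

/-- **(A3)**: `Ψ ∘ c_{u(t)} = Ψ` on `Γ(M)` for all `t ∈ ℤ[1/q]`. -/
lemma psi_conj_uQ
    (hmul : ∀ g h, IsPrincipal q M g → IsPrincipal q M h → Ψ (g * h) = Ψ g + Ψ h)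
    (hunip : ∀ g, IsPrincipal q M g → g 0 0 + g 1 1 = 2 → Ψ g = 0)
    (hq : q ≠ 0) (hF2 : GoodShift q M) {g : SLQ} (hg : IsPrincipal q M g)
    {t : ℚ} (ht : IsAway q t) : Ψ (uQ t * g * (uQ t)⁻¹) = Ψ g := by
  obtain ⟨a00, a01, a10, a11⟩ := prIsAwayMat hg
  have hunimod : ∃ x y : ℚ, IsAway q x ∧ IsAway q y ∧ g 0 0 * x + g 1 0 * y = 1 :=
    ⟨g 1 1, -(g 0 1), a11, a01.neg, by have := det_eq g; linear_combination this⟩
  obtain ⟨s, n, s2, hs, hs2, hn, heta, hgen⟩ := hF2 (g 0 0) (g 1 0) hg.1 hg.2.2.1 hunimod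
  have hMs : IsCongZero q M ((M : ℚ) * s) := czOfAway hs
  have hl : IsPrincipal q M (lQ ((M : ℚ) * s)) := isPrincipal_lQ hMs
  have hg' : IsPrincipal q M (lQ ((M : ℚ) * s) * g) := prMul hl hg
  have h00 : (lQ ((M : ℚ) * s) * g) 0 0 = g 0 0 := by
    rw [mul_00, lQ_00, lQ_01]; ring
  have h10 : (lQ ((M : ℚ) * s) * g) 1 0 = g 1 0 + (M : ℚ) * s * g 0 0 := by
    rw [mul_10, lQ_10, lQ_11]; ring
  have key := psi_conj_uQ_of_good hmul hunip hq hg' n hn s2 hs2 (by rw [h10]; exact heta)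
    (by intro t' ht'; rw [h00]; exact hgen t' ht') ht
  have hsplit : uQ t * (lQ ((M : ℚ) * s) * g) * (uQ t)⁻¹ =
      (uQ t * lQ ((M : ℚ) * s) * (uQ t)⁻¹) * (uQ t * g * (uQ t)⁻¹) := by group
  have hut := isAwayMat_uQ (q := q) ht
  rw [hsplit, hmul _ _ (prConj hl hut) (prConj hg hut),
    psi_conj_unip hunip hl (by simp; norm_num) hut, zero_add,
    psi_lQ_mul hmul hunip hg hMs] at key
  exact key

/-- **(A4)**: `Ψ ∘ c_{l(t)} = Ψ` on `Γ(M)` for all `t ∈ ℤ[1/q]`. -/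
lemma psi_conj_lQ
    (hmul : ∀ g h, IsPrincipal q M g → IsPrincipal q M h → Ψ (g * h) = Ψ g + Ψ h)
    (hunip : ∀ g, IsPrincipal q M g → g 0 0 + g 1 1 = 2 → Ψ g = 0)
    (hq : q ≠ 0) (hF2 : GoodShift q M) {g : SLQ} (hg : IsPrincipal q M g)
    {t : ℚ} (ht : IsAway q t) : Ψ (lQ t * g * (lQ t)⁻¹) = Ψ g := by
  have hw := isAwayMat_wQ q
  -- the transported par-hom `Ψ' = Ψ ∘ c_w`
  have hmul' : ∀ g h, IsPrincipal q M g → IsPrincipal q M h →
      Ψ (wQ * (g * h) * wQ⁻¹) = Ψ (wQ * g * wQ⁻¹) + Ψ (wQ * h * wQ⁻¹) := by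
    intro g h hg hh
    rw [← hmul _ _ (prConj hg hw) (prConj hh hw)]
    congr 1; group
  have hunip' : ∀ g, IsPrincipal q M g → g 0 0 + g 1 1 = 2 → Ψ (wQ * g * wQ⁻¹) = 0 :=
    fun g hg htr => psi_conj_unip hunip hg htr hw
  have hg₀ : IsPrincipal q M (wQ⁻¹ * g * wQ⁻¹⁻¹) := prConj hg hw.inv
  have key := psi_conj_uQ (Ψ := fun g => Ψ (wQ * g * wQ⁻¹)) hmul' hunip' hq hF2 hg₀ ht.neg
  have e1 : wQ * (uQ (-t) * (wQ⁻¹ * g * wQ⁻¹⁻¹) * (uQ (-t))⁻¹) * wQ⁻¹ =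
      (wQ * uQ (-t) * wQ⁻¹) * g * (wQ * uQ (-t) * wQ⁻¹)⁻¹ := by group
  have e2 : wQ * (wQ⁻¹ * g * wQ⁻¹⁻¹) * wQ⁻¹ = g := by group
  rw [e1, e2, wQ_uQ_wQ_inv, neg_neg] at key
  exact key

end

/-! ### generation of `SL₂(ℤ[1/q])` by elementary matrices -/

section Stab

variable {V : Type*} [AddCommGroup V] (q M : ℕ) (Ψ : SLQ → V)

/-- the stabiliser of `Ψ` in `SL₂(ℤ[1/q])` -/
def stab : Subgroup SLQ where
  carrier := {x | IsAwayMat q x ∧ ∀ g, IsPrincipal q M g → Ψ (x * g * x⁻¹) = Ψ g}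
  one_mem' := ⟨IsAwayMat.one q, fun g _ => by simp⟩
  mul_mem' := by
    rintro x y ⟨hx, hx'⟩ ⟨hy, hy'⟩
    refine ⟨hx.mul hy, fun g hg => ?_⟩
    rw [show x * y * g * (x * y)⁻¹ = x * (y * g * y⁻¹) * x⁻¹ by group, hx' _ (prConj hg hy),
      hy' g hg]
  inv_mem' := by
    rintro x ⟨hx, hx'⟩
    refine ⟨hx.inv, fun g hg => ?_⟩
    have := hx' (x⁻¹ * g * x⁻¹⁻¹) (prConj hg hx.inv)
    rw [show x * (x⁻¹ * g * x⁻¹⁻¹) * x⁻¹ = g by group] at this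
    exact this.symm

lemma mem_stab_iff (x : SLQ) :
    x ∈ stab q M Ψ ↔ IsAwayMat q x ∧ ∀ g, IsPrincipal q M g → Ψ (x * g * x⁻¹) = Ψ g := Iff.rfl

end Stab

/-! ### Step A -/

section Gen

open ModularGroup

variable {V : Type*} [AddCommGroup V] {q M : ℕ} [hqp : Fact q.Prime] {Ψ : SLQ → V}

lemma wQ_eq : wQ = uQ 1 * lQ (-1) * uQ 1 := by
  apply ext_entries <;>
    simp only [mul_00, mul_01, mul_10, mul_11, uQ_00, uQ_01, uQ_10, uQ_11, lQ_00, lQ_01, lQ_10,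
      lQ_11, wQ_00, wQ_01, wQ_10, wQ_11] <;> ring

lemma castSL_T : castSL T = uQ 1 := by
  apply ext_entries <;> simp [castSL_apply, ModularGroup.T]

lemma castSL_S : castSL S = wQ⁻¹ := by
  apply ext_entries <;> simp [castSL_apply, ModularGroup.S, inv_00, inv_01, inv_10, inv_11]

lemma conjδ_uQ (hq : q ≠ 0) (t : ℚ) : conjδ q hq (uQ t) = uQ ((q : ℚ) * t) := by
  apply ext_entries <;> simp [conjδ_apply, conjFun_00, conjFun_01, conjFun_10, conjFun_11]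

lemma conjδ_lQ (hq : q ≠ 0) (t : ℚ) : conjδ q hq (lQ t) = lQ (t / q) := by
  apply ext_entries <;> simp [conjδ_apply, conjFun_00, conjFun_01, conjFun_10, conjFun_11]

/-- **Step A (centrality).**  A par-hom `Ψ` of level `M` is invariant under conjugation by
`SL₂(ℤ[1/q])`. -/
theorem stepA
    (hmul : ∀ g h, IsPrincipal q M g → IsPrincipal q M h → Ψ (g * h) = Ψ g + Ψ h)
    (hunip : ∀ g, IsPrincipal q M g → g 0 0 + g 1 1 = 2 → Ψ g = 0)
    (hF2 : GoodShift q M) {x g : SLQ} (hx : IsAwayMat q x) (hg : IsPrincipal q M g) :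
    Ψ (x * g * x⁻¹) = Ψ g := by
  have hq : q ≠ 0 := hqp.out.ne_zero
  have hu : ∀ t : ℚ, IsAway q t → uQ t ∈ stab q M Ψ := fun t ht =>
    ⟨isAwayMat_uQ ht, fun g hg => psi_conj_uQ hmul hunip hq hF2 hg ht⟩
  have hl : ∀ t : ℚ, IsAway q t → lQ t ∈ stab q M Ψ := fun t ht =>
    ⟨isAwayMat_lQ ht, fun g hg => psi_conj_lQ hmul hunip hq hF2 hg ht⟩
  have hw : wQ ∈ stab q M Ψ := by
    rw [wQ_eq]
    exact mul_mem (mul_mem (hu 1 IsAway.one) (hl (-1) IsAway.one.neg)) (hu 1 IsAway.one)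
  -- `SL₂(ℤ)` stabilises `Ψ`
  have hZ : ∀ γ : Matrix.SpecialLinearGroup (Fin 2) ℤ, castSL γ ∈ stab q M Ψ := by
    intro γ
    have hle : Subgroup.closure ({S, T} : Set (Matrix.SpecialLinearGroup (Fin 2) ℤ)) ≤
        (stab q M Ψ).comap castSL := by
      rw [Subgroup.closure_le]
      rintro y (rfl | rfl)
      · show castSL S ∈ stab q M Ψ
        rw [castSL_S]; exact inv_mem hw
      · show castSL T ∈ stab q M Ψ
        rw [castSL_T]; exact hu 1 IsAway.one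
    rw [SpecialLinearGroup.SL2Z_generators] at hle
    exact hle (Subgroup.mem_top γ)
  -- so does its `δ`-conjugate
  have hZδ : ∀ γ : Matrix.SpecialLinearGroup (Fin 2) ℤ,
      conjδ q hq (castSL γ) ∈ stab q M Ψ := by
    intro γ
    have hle : Subgroup.closure ({S, T} : Set (Matrix.SpecialLinearGroup (Fin 2) ℤ)) ≤
        (stab q M Ψ).comap ((conjδ q hq).toMonoidHom.comp castSL) := by
      rw [Subgroup.closure_le]
      rintro y (rfl | rfl)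
      · show conjδ q hq (castSL S) ∈ stab q M Ψ
        rw [castSL_S, map_inv, wQ_eq, map_mul, map_mul, conjδ_uQ, conjδ_lQ]
        refine inv_mem (mul_mem (mul_mem (hu _ ?_) (hl _ ?_)) (hu _ ?_))
        · exact (IsAway.of_int (q := q) (q : ℤ)).mul IsAway.one |> fun h => by simpa using h
        · exact IsAway.one.neg.div_q hq
        · exact (IsAway.of_int (q := q) (q : ℤ)).mul IsAway.one |> fun h => by simpa using h
      · show conjδ q hq (castSL T) ∈ stab q M Ψ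
        rw [castSL_T, conjδ_uQ]
        exact hu _ ((IsAway.of_int (q := q) (q : ℤ)).mul IsAway.one |> fun h => by simpa using h)
    rw [SpecialLinearGroup.SL2Z_generators] at hle
    exact hle (Subgroup.mem_top γ)
  -- generation of `SL₂(ℤ[1/q]) = Δ(1, q)`
  have hq1 : ¬ q ∣ 1 := fun h => hqp.out.one_lt.ne' (Nat.dvd_one.1 h)
  have hgen := sup_eq_DeltaQ 1 q hq1
  have hxΔ : x ∈ DeltaQ 1 q := by
    obtain ⟨x00, x01, x10, x11⟩ := hx
    exact ⟨x00, x01, ⟨x 1 0, x10, by simp⟩, x11⟩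
  rw [← hgen] at hxΔ
  have hle : GamQ 1 ⊔ GamQδ 1 q (q_ne_zero q) ≤ stab q M Ψ := by
    refine sup_le ?_ ?_
    · rintro y ⟨γ, -, rfl⟩
      exact hZ γ
    · rintro y ⟨z, ⟨γ, -, rfl⟩, rfl⟩
      exact hZδ γ
  exact (hle hxΔ).2 g hg

end Gen

end Fermat.Agent.S41.CSP16
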